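import Fermat.Agent.Curve.Basics.Along
import Fermat.Agent.Curve.Basics.IsCurveOver
import Fermat.Agent.Curve.Basics.Equiv

/-!
# Basics on function fields of one variable

This file re-exports the modules under `Curve/Basics`.
-/
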